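import Mathlib
import Fermat.Prelude.Def_FLTPrelim_Modularity
import Fermat.Prelude.Def_FLTPrelim_Ramification
import Fermat.Agent.S05.Good
import Fermat.Agent.S13.H56.TorsionFinal
import Fermat.Agent.S13.H94.Decomp

/-!
# S41, unit U7, leaf 1: the fixed-point bridge in decomposition form

`W` an integral Weierstrass model, `ℓ ≠ p` primes, `p` odd, `ℓ ∤ Δ(W)`, `A` a valuation subring
of `ℚ̄` over `ℓ` and `g` ANY element of its decomposition group.  If `p` divides the number of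
points of `W` modulo `ℓ`, then `g` fixes a nonzero `p`-torsion point of `W` over `ℚ̄`.

No Frobenius element, no reduction homomorphism: a point of order `p` modulo `ℓ` (Cauchy) has
an `x`-coordinate which is a root of the division polynomial modulo `ℓ`; the division polynomial
splits over `ℚ̄` with `A`-integral roots, so some `p`-torsion point is congruent to it modulo the
maximal ideal of `A`; its coordinates are congruent to integers, so `g` moves it inside its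
residue class, and the kernel of reduction has no `p`-torsion.
-/

set_option autoImplicit false

namespace Fermat.Agent.S41.H35

open WeierstrassCurve WeierstrassCurve.Affine WeierstrassCurve.Affine.Point Polynomial

local notation "Qb" => AlgebraicClosure ℚ
local notation "Γ" => (AlgebraicClosure ℚ ≃ₐ[ℚ] AlgebraicClosure ℚ)

section Val

variable (A : ValuationSubring Qb) {ℓ : ℕ}

theorem intCast_mem' (n : ℤ) : (n : Qb) ∈ A := intCast_mem A n

theorem nonunits_add {x y : Qb} (hx : x ∈ A.nonunits) (hy : y ∈ A.nonunits) :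
    x + y ∈ A.nonunits := by
  rw [A.mem_nonunits_iff] at hx hy ⊢
  exact A.valuation.map_add_lt hx hy

theorem nonunits_sub {x y : Qb} (hx : x ∈ A.nonunits) (hy : y ∈ A.nonunits) :
    x - y ∈ A.nonunits := by
  rw [A.mem_nonunits_iff] at hx hy ⊢
  exact A.valuation.map_sub_lt hx hy

theorem nonunits_neg {x : Qb} (hx : x ∈ A.nonunits) : -x ∈ A.nonunits := by
  rw [A.mem_nonunits_iff] at hx ⊢
  rwa [Valuation.map_neg]

theorem mem_mul_nonunits {a x : Qb} (ha : a ∈ A) (hx : x ∈ A.nonunits) : a * x ∈ A.nonunits := by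
  rw [A.mem_nonunits_iff] at hx ⊢
  rw [map_mul]
  have ha' := (A.valuation_le_one_iff a).mpr ha
  calc A.valuation a * A.valuation x ≤ 1 * A.valuation x := by
        exact mul_le_mul_of_nonneg_right ha' zero_le
    _ = A.valuation x := one_mul _
    _ < 1 := hx

theorem nonunits_mul_mem {a x : Qb} (hx : x ∈ A.nonunits) (ha : a ∈ A) : x * a ∈ A.nonunits := by
  rw [mul_comm]
  exact mem_mul_nonunits A ha hx

theorem mem_of_nonunits {x : Qb} (hx : x ∈ A.nonunits) : x ∈ A := A.nonunits_subset hx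

theorem one_not_mem_nonunits : (1 : Qb) ∉ A.nonunits := by
  rw [A.mem_nonunits_iff, map_one]
  exact lt_irrefl _

/-- In a valuation subring, a product lying in the maximal ideal has a factor there. -/
theorem nonunits_of_mul {x y : Qb} (hx : x ∈ A) (hy : y ∈ A) (h : x * y ∈ A.nonunits) :
    x ∈ A.nonunits ∨ y ∈ A.nonunits := by
  by_contra hcon
  rw [not_or] at hcon
  have h1 : A.valuation x = 1 := by
    refine le_antisymm ((A.valuation_le_one_iff _).mpr hx) (not_lt.mp ?_)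
    rw [← A.mem_nonunits_iff]; exact hcon.1
  have h2 : A.valuation y = 1 := by
    refine le_antisymm ((A.valuation_le_one_iff _).mpr hy) (not_lt.mp ?_)
    rw [← A.mem_nonunits_iff]; exact hcon.2
  rw [A.mem_nonunits_iff, map_mul, h1, h2, one_mul] at h
  exact lt_irrefl _ h

theorem intCast_mem_nonunits_of_dvd (hA : A.LiesOverPrime ℓ) {n : ℤ} (h : (ℓ : ℤ) ∣ n) :
    (n : Qb) ∈ A.nonunits := by
  obtain ⟨m, rfl⟩ := h
  push_cast
  exact nonunits_mul_mem A hA (intCast_mem' A m)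

theorem intCast_not_mem_nonunits (hℓ : ℓ.Prime) (hA : A.LiesOverPrime ℓ) {n : ℤ}
    (h : ¬ (ℓ : ℤ) ∣ n) : (n : Qb) ∉ A.nonunits := by
  intro hn
  have hcop : IsCoprime (ℓ : ℤ) n :=
    (Nat.prime_iff_prime_int.mp hℓ).irreducible.coprime_iff_not_dvd.mpr h
  obtain ⟨u, v, huv⟩ := hcop
  have h1 : ((u * ℓ + v * n : ℤ) : Qb) ∈ A.nonunits := by
    push_cast
    exact nonunits_add A (mem_mul_nonunits A (intCast_mem' A u) hA)
      (mem_mul_nonunits A (intCast_mem' A v) hn)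
  rw [huv] at h1
  exact one_not_mem_nonunits A (by simpa using h1)

theorem valuation_intCast_eq_one (hℓ : ℓ.Prime) (hA : A.LiesOverPrime ℓ) {n : ℤ}
    (h : ¬ (ℓ : ℤ) ∣ n) : A.valuation (n : Qb) = 1 := by
  refine le_antisymm ((A.valuation_le_one_iff _).mpr (intCast_mem' A n)) (not_lt.mp ?_)
  rw [← A.mem_nonunits_iff]
  exact intCast_not_mem_nonunits A hℓ hA h

/-- The decomposition group preserves the maximal ideal. -/
theorem apply_mem_nonunits {g : Γ} (hg : g ∈ A.decompositionSubgroup ℚ) {x : Qb}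
    (hx : x ∈ A.nonunits) : g x ∈ A.nonunits := by
  rw [A.mem_nonunits_iff] at hx ⊢
  rwa [Fermat.Agent.S13.H94.valuation_map_of_mem_decomposition A g hg]

/-- An element of the decomposition group moves an element congruent to an integer inside its
residue class. -/
theorem apply_sub_mem_nonunits {g : Γ} (hg : g ∈ A.decompositionSubgroup ℚ) {x : Qb} {n : ℤ}
    (hx : x - n ∈ A.nonunits) : g x - x ∈ A.nonunits := by
  have h1 : g (x - n) ∈ A.nonunits := apply_mem_nonunits A hg hx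
  rw [map_sub, map_intCast] at h1
  have h2 : g x - x = (g x - n) - (x - n) := by ring
  rw [h2]
  exact nonunits_sub A h1 hx

end Val

section Congr

open Fermat.Agent.S05

/-- The Galois action on a point in coordinates. -/
theorem smul_some' (E : Affine ℚ) (σ : Γ) {x y : Qb} (h : (E⁄Qb).Nonsingular x y) :
    ∃ h' : (E⁄Qb).Nonsingular (σ x) (σ y),
      σ • (Point.some x y h : (E⁄Qb).Point) = Point.some (σ x) (σ y) h' :=
  ⟨_, rfl⟩

theorem smul_nsmul' (E : Affine ℚ) (σ : Γ) (n : ℕ) (P : (E⁄Qb).Point) :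
    σ • (n • P) = n • (σ • P) :=
  map_nsmul (DistribSMul.toAddMonoidHom (E⁄Qb).Point σ) n P

/-- **Congruent implies equal on torsion.**  Good reduction at `A`, `p` odd and a unit of `A`:
if `σ` moves the coordinates of a `p`-torsion point inside their residue classes modulo the
maximal ideal of `A`, then `σ` fixes the point. -/
theorem smul_eq_of_sub_mem_nonunits (W₀ : Affine ℚ) (A : ValuationSubring Qb)
    (ha₁ : algebraMap ℚ Qb W₀.a₁ ∈ A) (ha₂ : algebraMap ℚ Qb W₀.a₂ ∈ A)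
    (ha₃ : algebraMap ℚ Qb W₀.a₃ ∈ A) (ha₄ : algebraMap ℚ Qb W₀.a₄ ∈ A)
    (ha₆ : algebraMap ℚ Qb W₀.a₆ ∈ A)
    (hΔ : A.valuation (algebraMap ℚ Qb W₀.Δ) = 1)
    {p : ℕ} (hp : p.Prime) (hp2 : p ≠ 2) (hpA : A.valuation (p : Qb) = 1)
    (σ : Γ) {x y : Qb} (h : (W₀⁄Qb).Nonsingular x y)
    (hP : p • (Point.some x y h : (W₀⁄Qb).Point) = 0)
    (hσx : σ x - x ∈ A.nonunits) (hσy : σ y - y ∈ A.nonunits) :
    σ • (Point.some x y h : (W₀⁄Qb).Point) = Point.some x y h := by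
  have hP0 : (Point.some x y h : (W₀⁄Qb).Point) ≠ 0 := Point.some_ne_zero h
  have hx : x ∈ A :=
    H60.torsion_integral' (W := W₀⁄Qb) A ha₁ ha₂ ha₃ ha₄ ha₆ hp hp2 hpA hP0 hP
  have hy : y ∈ A := y_mem_of_x_mem A (W₀⁄Qb) ha₁ ha₂ ha₃ ha₄ ha₆ h.1 hx
  have hΔ' : A.valuation (W₀⁄Qb).Δ = 1 := by
    rw [show (W₀⁄Qb).Δ = algebraMap ℚ Qb W₀.Δ from WeierstrassCurve.map_Δ _ _]
    exact hΔ
  have hns := nonsingular_reduction_of_Δ A (W₀⁄Qb) ha₁ ha₂ ha₃ ha₄ ha₆ hΔ' h.1 hx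
  rw [Affine.evalEval_polynomialX, Affine.evalEval_polynomialY] at hns
  have hns' : (W₀⁄Qb).a₁ * y - (3 * x ^ 2 + 2 * (W₀⁄Qb).a₂ * x + (W₀⁄Qb).a₄) ∉ A.nonunits ∨
      2 * y + (W₀⁄Qb).a₁ * x + (W₀⁄Qb).a₃ ∉ A.nonunits := by
    rcases hns with h1 | h1
    · exact Or.inl fun hmem => by
        rw [A.mem_nonunits_iff, h1] at hmem; exact lt_irrefl _ hmem
    · exact Or.inr fun hmem => by
        rw [A.mem_nonunits_iff, h1] at hmem; exact lt_irrefl _ hmem
  obtain ⟨hσ', hmap⟩ := smul_some' W₀ σ h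
  rw [hmap]
  rcases H63.some_sub_some_eq_zero_or_X_not_mem A (W₀⁄Qb) ha₁ ha₂ ha₃ ha₄ h hσ' hx hy
      hσx hσy hns' with h0 | ⟨x'', y'', h'', hQ, hnot⟩
  · exact sub_eq_zero.mp h0
  · exfalso
    have hQ0 : Point.some (σ x) (σ y) hσ' - Point.some x y h ≠ 0 := by
      rw [hQ]; exact Point.some_ne_zero h''
    have hpQ : p • (Point.some (σ x) (σ y) hσ' - Point.some x y h) = 0 := by
      rw [nsmul_sub, ← hmap, ← smul_nsmul', hP, smul_zero (A := (W₀⁄Qb).Point) σ, sub_zero]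
    have := H60.torsion_integral' (W := W₀⁄Qb) A ha₁ ha₂ ha₃ ha₄ ha₆ hp hp2 hpA hQ0 hpQ
    rw [hQ] at this
    exact hnot this

end Congr

section Main

open Fermat.Agent.S05 Fermat.Agent.S13.H15 Fermat.Agent.S13.H56

/-- A multiset of elements of `A` none of which lies in the maximal ideal has product outside
the maximal ideal. -/
theorem multiset_prod_not_mem_nonunits (A : ValuationSubring Qb) (m : Multiset Qb)
    (hm : ∀ z ∈ m, z ∈ A ∧ z ∉ A.nonunits) : m.prod ∈ A ∧ m.prod ∉ A.nonunits := by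
  induction m using Multiset.induction_on with
  | empty => exact ⟨by simp, by simpa using one_not_mem_nonunits A⟩
  | cons z m ih =>
    have h1 := hm z (Multiset.mem_cons_self z m)
    have h2 := ih fun w hw => hm w (Multiset.mem_cons_of_mem hw)
    rw [Multiset.prod_cons]
    refine ⟨mul_mem h1.1 h2.1, fun h => ?_⟩
    rcases nonunits_of_mul A h1.1 h2.1 h with h3 | h3
    · exact h1.2 h3
    · exact h2.2 h3

/-- Counting points modulo `ℓ`: `ℓ + 1 - a_ℓ` is the number of points. -/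
theorem add_one_sub_apOfModel (W : WeierstrassCurve ℤ) (ℓ : ℕ) [NeZero ℓ] :
    (ℓ : ℤ) + 1 - W.apOfModel ℓ = (Nat.card (W.reductionMod ℓ).toAffine.Point : ℤ) := by
  simp only [WeierstrassCurve.apOfModel, WeierstrassCurve.traceOfFrobenius,
    WeierstrassCurve.card, Nat.card_zmod]
  ring

/-- A point of order `p` modulo `ℓ`, in integer coordinates: integers `n₀, m₀` such that `ℓ`
divides the division polynomial at `n₀` and the Weierstrass equation at `(n₀, m₀)`. -/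
theorem exists_int_point_of_dvd_card (W : WeierstrassCurve ℤ) {ℓ : ℕ} (hℓ : ℓ.Prime) (k : ℕ)
    (hp : (2 * k + 1).Prime)
    (hdvd : ((2 * k + 1 : ℕ) : ℤ) ∣ (ℓ : ℤ) + 1 - W.apOfModel ℓ) :
    ∃ n₀ m₀ : ℤ, (ℓ : ℤ) ∣ (ladD W k).eval n₀ ∧
      (ℓ : ℤ) ∣ m₀ ^ 2 + W.a₁ * n₀ * m₀ + W.a₃ * m₀ -
        (n₀ ^ 3 + W.a₂ * n₀ ^ 2 + W.a₄ * n₀ + W.a₆) := by
  have : Fact ℓ.Prime := ⟨hℓ⟩
  have : Fact (2 * k + 1).Prime := ⟨hp⟩
  have : NeZero ℓ := ⟨hℓ.ne_zero⟩
  rw [add_one_sub_apOfModel, Int.natCast_dvd_natCast] at hdvd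
  obtain ⟨T, hT⟩ := exists_prime_addOrderOf_dvd_card' (2 * k + 1) hdvd
  have hT0 : T ≠ 0 := by
    rintro rfl
    rw [addOrderOf_zero] at hT
    exact hp.one_lt.ne hT
  have hTp : (2 * k + 1) • T = 0 := by
    rw [← hT]; exact addOrderOf_nsmul_eq_zero T
  rcases T with _ | ⟨x₀, y₀, h₀⟩
  · exact absurd rfl hT0
  obtain ⟨n₀, rfl⟩ := ZMod.intCast_surjective x₀
  obtain ⟨m₀, rfl⟩ := ZMod.intCast_surjective y₀
  refine ⟨n₀, m₀, ?_, ?_⟩
  · have h1 := (Fermat.Agent.S13.H61.nsmul_some_eq_zero_iff_ladD _ h₀ k).mp hTp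
    have h2 : ladD (W.reductionMod ℓ).toAffine k = (ladD W k).map (Int.castRingHom (ZMod ℓ)) :=
      ladD_map (Int.castRingHom (ZMod ℓ)) W k
    rw [h2, show ((n₀ : ℤ) : ZMod ℓ) = Int.castRingHom (ZMod ℓ) n₀ from rfl, eval_map,
      eval₂_at_apply] at h1
    exact (ZMod.intCast_zmod_eq_zero_iff_dvd _ ℓ).mp h1
  · have h1 := h₀.1
    rw [Affine.equation_iff] at h1
    rw [← ZMod.intCast_zmod_eq_zero_iff_dvd]
    have ha₁ : (W.reductionMod ℓ).toAffine.a₁ = ((W.a₁ : ℤ) : ZMod ℓ) := rfl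
    have ha₂ : (W.reductionMod ℓ).toAffine.a₂ = ((W.a₂ : ℤ) : ZMod ℓ) := rfl
    have ha₃ : (W.reductionMod ℓ).toAffine.a₃ = ((W.a₃ : ℤ) : ZMod ℓ) := rfl
    have ha₄ : (W.reductionMod ℓ).toAffine.a₄ = ((W.a₄ : ℤ) : ZMod ℓ) := rfl
    have ha₆ : (W.reductionMod ℓ).toAffine.a₆ = ((W.a₆ : ℤ) : ZMod ℓ) := rfl
    rw [ha₁, ha₂, ha₃, ha₄, ha₆] at h1
    push_cast
    linear_combination h1

/-- Over `ℚ̄`: a `p`-torsion point congruent modulo the maximal ideal of `A` to a given point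
modulo `ℓ` in integer coordinates. -/
theorem exists_torsion_congr (W : WeierstrassCurve ℤ) {ℓ : ℕ} (hℓ : ℓ.Prime) (k : ℕ)
    (hp : (2 * k + 1).Prime) (hp2 : 2 * k + 1 ≠ 2) (hℓp : ℓ ≠ 2 * k + 1)
    (hgood : ¬ (ℓ : ℤ) ∣ W.Δ)
    (A : ValuationSubring Qb) (hA : A.LiesOverPrime ℓ) (n₀ m₀ : ℤ)
    (h1 : (ℓ : ℤ) ∣ (ladD W k).eval n₀)
    (h2 : (ℓ : ℤ) ∣ m₀ ^ 2 + W.a₁ * n₀ * m₀ + W.a₃ * m₀ -
        (n₀ ^ 3 + W.a₂ * n₀ ^ 2 + W.a₄ * n₀ + W.a₆)) :
    ∃ (x y : Qb) (h : ((W.map (Int.castRingHom ℚ)).toAffine⁄Qb).Nonsingular x y),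
      (2 * k + 1) • (Point.some x y h : ((W.map (Int.castRingHom ℚ)).toAffine⁄Qb).Point) = 0 ∧
      x - n₀ ∈ A.nonunits ∧ y - m₀ ∈ A.nonunits := by
  have hcoe : ∀ n : ℤ, algebraMap ℚ Qb (n : ℚ) = (n : Qb) := fun n => map_intCast _ n
  have ha₁ : ((W.map (Int.castRingHom ℚ)).toAffine⁄Qb).a₁ = (W.a₁ : Qb) := hcoe _
  have ha₂ : ((W.map (Int.castRingHom ℚ)).toAffine⁄Qb).a₂ = (W.a₂ : Qb) := hcoe _
  have ha₃ : ((W.map (Int.castRingHom ℚ)).toAffine⁄Qb).a₃ = (W.a₃ : Qb) := hcoe _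
  have ha₄ : ((W.map (Int.castRingHom ℚ)).toAffine⁄Qb).a₄ = (W.a₄ : Qb) := hcoe _
  have ha₆ : ((W.map (Int.castRingHom ℚ)).toAffine⁄Qb).a₆ = (W.a₆ : Qb) := hcoe _
  have hΔ : ((W.map (Int.castRingHom ℚ)).toAffine⁄Qb).Δ = (W.Δ : Qb) := by
    rw [show ((W.map (Int.castRingHom ℚ)).toAffine⁄Qb).Δ =
      algebraMap ℚ Qb (W.map (Int.castRingHom ℚ)).Δ from WeierstrassCurve.map_Δ _ _,
      WeierstrassCurve.map_Δ]
    exact hcoe _
  have hΔ0 : ((W.map (Int.castRingHom ℚ)).toAffine⁄Qb).Δ ≠ 0 := by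
    rw [hΔ, Int.cast_ne_zero]
    rintro h0
    exact hgood (h0 ▸ dvd_zero _)
  set Wb : Affine Qb := ((W.map (Int.castRingHom ℚ)).toAffine⁄Qb) with hWb
  -- the division polynomial over `ℚ̄` is the integral one
  have hD : ladD Wb k = (ladD W k).map (Int.castRingHom Qb) := by
    rw [hWb, show ((W.map (Int.castRingHom ℚ)).toAffine⁄Qb) =
      (W.map (Int.castRingHom ℚ)).map (algebraMap ℚ Qb) from rfl, ladD_map, ladD_map,
      Polynomial.map_map]
    congr 1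
  have hDeval : (ladD Wb k).eval (n₀ : Qb) = (((ladD W k).eval n₀ : ℤ) : Qb) := by
    rw [hD, show (n₀ : Qb) = Int.castRingHom Qb n₀ from rfl, eval_map, eval₂_at_apply]
    rfl
  have hDnu : (ladD Wb k).eval (n₀ : Qb) ∈ A.nonunits := by
    rw [hDeval]; exact intCast_mem_nonunits_of_dvd A hA h1
  have hD0 : ladD Wb k ≠ 0 := ladD_ne_zero Wb k
  have hprod := (IsAlgClosed.splits (ladD Wb k)).eval_eq_prod_roots (n₀ : Qb)
  have hlead : (ladD Wb k).leadingCoeff = -((2 * k + 1 : ℕ) : Qb) := by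
    rw [leadingCoeff, ladD_natDegree Wb k, ladD_coeff]
  have hℓp' : ¬ (ℓ : ℤ) ∣ ((2 * k + 1 : ℕ) : ℤ) := by
    rw [Int.natCast_dvd_natCast]
    intro h
    exact hℓp ((Nat.prime_dvd_prime_iff_eq hℓ hp).mp h)
  have hpA : A.valuation ((2 * k + 1 : ℕ) : Qb) = 1 := by
    have := valuation_intCast_eq_one A hℓ hA hℓp'
    rwa [Int.cast_natCast] at this
  -- integrality of the coefficients and of the roots
  have hc₁ : Wb.a₁ ∈ A := by rw [ha₁]; exact intCast_mem' A _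
  have hc₂ : Wb.a₂ ∈ A := by rw [ha₂]; exact intCast_mem' A _
  have hc₃ : Wb.a₃ ∈ A := by rw [ha₃]; exact intCast_mem' A _
  have hc₄ : Wb.a₄ ∈ A := by rw [ha₄]; exact intCast_mem' A _
  have hc₆ : Wb.a₆ ∈ A := by rw [ha₆]; exact intCast_mem' A _
  have hroot : ∀ r ∈ (ladD Wb k).roots, ∃ (y : Qb) (h : Wb.Nonsingular r y),
      (2 * k + 1) • (Point.some r y h : Wb.Point) = 0 ∧ r ∈ A ∧ y ∈ A := by
    intro r hr
    have hr0 : (ladD Wb k).eval r = 0 := (mem_roots hD0).mp hr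
    obtain ⟨y, hy⟩ := exists_nonsingular_of_isAlgClosed Wb hΔ0 r
    have hP : (2 * k + 1) • (Point.some r y hy : Wb.Point) = 0 :=
      (Fermat.Agent.S13.H61.nsmul_some_eq_zero_iff_ladD Wb hy k).mpr hr0
    have hrA : r ∈ A :=
      H60.torsion_integral' (W := Wb) A hc₁ hc₂ hc₃ hc₄ hc₆ hp hp2 hpA
        (Point.some_ne_zero hy) hP
    exact ⟨y, hy, hP, hrA, y_mem_of_x_mem A Wb hc₁ hc₂ hc₃ hc₄ hc₆ hy.1 hrA⟩
  -- some root is congruent to `n₀`
  have hex : ∃ r ∈ (ladD Wb k).roots, (n₀ : Qb) - r ∈ A.nonunits := by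
    by_contra hcon
    push Not at hcon
    have h3 := multiset_prod_not_mem_nonunits A ((ladD Wb k).roots.map ((n₀ : Qb) - ·))
      (by
        intro z hz
        obtain ⟨r, hr, rfl⟩ := Multiset.mem_map.mp hz
        obtain ⟨y, hy, -, hrA, -⟩ := hroot r hr
        exact ⟨sub_mem (intCast_mem' A n₀) hrA, hcon r hr⟩)
    rw [hprod, hlead] at hDnu
    have h4 : -((2 * k + 1 : ℕ) : Qb) ∈ A := neg_mem (natCast_mem A _)
    rcases nonunits_of_mul A h4 h3.1 hDnu with h5 | h5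
    · rw [A.mem_nonunits_iff, Valuation.map_neg, hpA] at h5
      exact lt_irrefl _ h5
    · exact h3.2 h5
  obtain ⟨x, hx, hxn⟩ := hex
  obtain ⟨y, hy, hP, hxA, hyA⟩ := hroot x hx
  have hxn' : x - n₀ ∈ A.nonunits := by
    have := nonunits_neg A hxn
    rwa [neg_sub] at this
  -- the `y`-coordinate: congruent to `m₀` or to its conjugate
  have hEq := hy.1
  rw [Affine.equation_iff, ha₁, ha₂, ha₃, ha₄, ha₆] at hEq
  have hF : ((m₀ ^ 2 + W.a₁ * n₀ * m₀ + W.a₃ * m₀ -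
      (n₀ ^ 3 + W.a₂ * n₀ ^ 2 + W.a₄ * n₀ + W.a₆) : ℤ) : Qb) ∈ A.nonunits :=
    intCast_mem_nonunits_of_dvd A hA h2
  push_cast at hF
  have hn₀A : (n₀ : Qb) ∈ A := intCast_mem' A n₀
  have hm₀A : (m₀ : Qb) ∈ A := intCast_mem' A m₀
  have hi₁ : (W.a₁ : Qb) ∈ A := intCast_mem' A _
  have hi₂ : (W.a₂ : Qb) ∈ A := intCast_mem' A _
  have hi₃ : (W.a₃ : Qb) ∈ A := intCast_mem' A _
  have hi₄ : (W.a₄ : Qb) ∈ A := intCast_mem' A _
  have hprodnu : (y - m₀) * (y - (-(m₀ : Qb) - W.a₁ * n₀ - W.a₃)) ∈ A.nonunits := by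
    have hcof : x ^ 2 + x * n₀ + (n₀ : Qb) ^ 2 + W.a₂ * (x + n₀) + W.a₄ - W.a₁ * y ∈ A :=
      sub_mem (add_mem (add_mem (add_mem (add_mem (pow_mem hxA 2) (mul_mem hxA hn₀A))
        (pow_mem hn₀A 2)) (mul_mem hi₂ (add_mem hxA hn₀A))) hi₄) (mul_mem hi₁ hyA)
    have h5 : (y - m₀) * (y - (-(m₀ : Qb) - W.a₁ * n₀ - W.a₃)) =
        (x - n₀) * (x ^ 2 + x * n₀ + (n₀ : Qb) ^ 2 + W.a₂ * (x + n₀) + W.a₄ - W.a₁ * y) -
        ((m₀ : Qb) ^ 2 + W.a₁ * n₀ * m₀ + W.a₃ * m₀ -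
          ((n₀ : Qb) ^ 3 + W.a₂ * (n₀ : Qb) ^ 2 + W.a₄ * n₀ + W.a₆)) := by
      linear_combination hEq
    rw [h5]
    exact nonunits_sub A (nonunits_mul_mem A hxn' hcof) hF
  have hm₀'A : -(m₀ : Qb) - W.a₁ * n₀ - W.a₃ ∈ A :=
    sub_mem (sub_mem (neg_mem hm₀A) (mul_mem hi₁ hn₀A)) hi₃
  rcases nonunits_of_mul A (sub_mem hyA hm₀A) (sub_mem hyA hm₀'A) hprodnu with hcase | hcase
  · exact ⟨x, y, hy, hP, hxn', hcase⟩
  · -- replace the point by its negative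
    have hneg : -(Point.some x y hy : Wb.Point) = Point.some x (Wb.negY x y)
        ((Affine.nonsingular_neg ..).mpr hy) := Point.neg_some hy
    refine ⟨x, Wb.negY x y, (Affine.nonsingular_neg ..).mpr hy, ?_, hxn', ?_⟩
    · rw [← hneg, neg_nsmul, hP, _root_.neg_zero]
    · have h6 : Wb.negY x y - m₀ =
          -(y - (-(m₀ : Qb) - W.a₁ * n₀ - W.a₃)) - W.a₁ * (x - n₀) := by
        simp only [Affine.negY, ha₁, ha₃]
        ring
      rw [h6]
      exact nonunits_sub A (nonunits_neg A hcase) (mem_mul_nonunits A hi₁ hxn')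

/-- **The fixed-point bridge, decomposition form.**  `ℓ ≠ p` primes, `p` odd, `ℓ` good for the
integral model `W`, `A` over `ℓ`, `g` in the decomposition group of `A`.  If `p` divides the number
`ℓ + 1 - a_ℓ` of points of `W` modulo `ℓ`, then `g` fixes a nonzero `p`-torsion point. -/
theorem exists_fixed_of_dvd_card (W : WeierstrassCurve ℤ) {p ℓ : ℕ} (hp : p.Prime) (hp2 : p ≠ 2)
    (hℓ : ℓ.Prime) (hℓp : ℓ ≠ p) (hgood : W.IsGoodPrimeFor ℓ)
    (A : ValuationSubring Qb) (hA : A.LiesOverPrime ℓ) (g : Γ)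
    (hg : g ∈ A.decompositionSubgroup ℚ)
    (hdvd : (p : ℤ) ∣ (ℓ : ℤ) + 1 - W.apOfModel ℓ) :
    ∃ P : ((W.map (Int.castRingHom ℚ)).toAffine⁄Qb).Point, P ≠ 0 ∧ p • P = 0 ∧ g • P = P := by
  obtain ⟨k, -, rfl⟩ := exists_eq_two_mul_add_one hp hp2
  obtain ⟨n₀, m₀, h1, h2⟩ := exists_int_point_of_dvd_card W hℓ k hp hdvd
  obtain ⟨x, y, h, hP, hx, hy⟩ := exists_torsion_congr W hℓ k hp hp2 hℓp hgood A hA n₀ m₀ h1 h2
  refine ⟨Point.some x y h, Point.some_ne_zero h, hP, ?_⟩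
  have hcoe : ∀ n : ℤ, algebraMap ℚ Qb (n : ℚ) = (n : Qb) := fun n => map_intCast _ n
  have hmem : ∀ n : ℤ, algebraMap ℚ Qb (n : ℚ) ∈ A := fun n => by
    rw [hcoe]; exact intCast_mem' A n
  have hℓp' : ¬ (ℓ : ℤ) ∣ ((2 * k + 1 : ℕ) : ℤ) := by
    rw [Int.natCast_dvd_natCast]
    intro h
    exact hℓp ((Nat.prime_dvd_prime_iff_eq hℓ hp).mp h)
  have hpA : A.valuation ((2 * k + 1 : ℕ) : Qb) = 1 := by
    have := valuation_intCast_eq_one A hℓ hA hℓp'
    rwa [Int.cast_natCast] at this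
  have hΔ : A.valuation (algebraMap ℚ Qb (W.map (Int.castRingHom ℚ)).toAffine.Δ) = 1 := by
    rw [show (W.map (Int.castRingHom ℚ)).toAffine.Δ = ((W.Δ : ℤ) : ℚ) from
      WeierstrassCurve.map_Δ _ _, hcoe]
    exact valuation_intCast_eq_one A hℓ hA hgood
  exact smul_eq_of_sub_mem_nonunits (W.map (Int.castRingHom ℚ)).toAffine A (hmem _) (hmem _)
    (hmem _) (hmem _) (hmem _) hΔ hp hp2 hpA g h hP (apply_sub_mem_nonunits A hg hx)
    (apply_sub_mem_nonunits A hg hy)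

end Main

end Fermat.Agent.S41.H35
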