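import Fermat.Agent.S41.H35.Bridge
import Fermat.Agent.S41.H2.NeAsm

/-!
# S41, unit U7, leaf U7-BRIDGE in the exact shape of the assembly

`bridgeStatement : Fermat.Agent.S41.H2.BridgeStatement`, from
`Fermat.Agent.S41.H35.exists_fixed_of_dvd_card` (`Bridge.lean`).
-/

set_option autoImplicit false

namespace Fermat.Agent.S41.H35

open WeierstrassCurve WeierstrassCurve.Affine WeierstrassCurve.Affine.Point

local notation "Qb" => AlgebraicClosure ℚ
local notation "Γ" => (AlgebraicClosure ℚ ≃ₐ[ℚ] AlgebraicClosure ℚ)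

/-- **Leaf U7-BRIDGE**, verbatim statement of the U7 assembly (`H2.ne_witness_of`): at a good
prime `l ≠ p` with `p ∣ #W(𝔽_l) = l + 1 - a_l`, every element of a decomposition group over `l`
fixes a nonzero `p`-torsion point.  (The hypothesis `l ≠ 2` is not used.) -/
theorem bridgeStatement : Fermat.Agent.S41.H2.BridgeStatement := by
  intro W p l hp hp2 hl _ hlp hgood A hA g hg hdvd
  obtain ⟨P, hP0, hpP, hgP⟩ := exists_fixed_of_dvd_card W hp hp2 hl hlp hgood A hA g hg hdvd
  have hmem : P ∈ Submodule.torsionBy ℤ ((W.map (Int.castRingHom ℚ))⁄Qb).Point p := by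
    rw [Submodule.mem_torsionBy_iff, Nat.cast_smul_eq_nsmul ℤ p P]
    exact hpP
  exact ⟨⟨P, hmem⟩, fun h => hP0 (congrArg Subtype.val h), Subtype.ext hgP⟩

end Fermat.Agent.S41.H35
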